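import Fermat.Agent.P2.BLR
import Fermat.Agent.CMP.Density

/-!
# P2, block 6B: Galois modules on which Frobenius elements satisfy the relations of `ρ`

`ρ : G_ℚ → M₂(T)`, `T = ℤ/p^n`, `X` a `T`-module with an action of `G_ℚ` such that
`σ² - a_ℓ σ + ℓ = 0` on `X` for almost all `ℓ`, `σ` a Frobenius element at `ℓ`, where
`a_ℓ = tr ρ(σ)`, `ℓ = det ρ(σ)`.  If the image of `ρ` spans `M₂(T)`:

* `smul_eq_of_rho_eq_one`: `ker ρ` acts trivially on `X`;
* `exists_entry`: if `g` acts on `X` as the scalar `c` then `ρ(g) - c` kills `X` entrywise;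
* `exists_odd_trace`: (`p = 2`) there is `ℓ ∉ S` with `a_ℓ` odd.
-/

set_option autoImplicit false
set_option linter.unusedSectionVars false

noncomputable section

namespace Fermat.Agent.P2.Mazur2k

local notation "Qbar" => AlgebraicClosure ℚ
local notation "Γℚ" => (AlgebraicClosure ℚ ≃ₐ[ℚ] AlgebraicClosure ℚ)

section Matrix

variable {R : Type*} [CommRing R]

theorem trace_pow_add_two (M : Matrix (Fin 2) (Fin 2) R) (k : ℕ) :
    (M ^ (k + 2)).trace = M.trace * (M ^ (k + 1)).trace - M.det * (M ^ k).trace := by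
  have h : M * M = M.trace • M - M.det • (1 : Matrix (Fin 2) (Fin 2) R) := by
    ext i j
    fin_cases i <;> fin_cases j <;>
      simp [Matrix.mul_apply, Fin.sum_univ_two, Matrix.trace_fin_two, Matrix.det_fin_two] <;> ring
  have h2 : M ^ (k + 2) = M.trace • M ^ (k + 1) - M.det • M ^ k := by
    rw [pow_add, sq, h, mul_sub, mul_smul_comm, mul_smul_comm, ← pow_succ, mul_one]
  rw [h2, Matrix.trace_sub, Matrix.trace_smul, Matrix.trace_smul, smul_eq_mul, smul_eq_mul]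

/-- the relation for powers -/
theorem rel_pow {E G : Type*} [Ring E] [Algebra R E] [Group G] (ξ : G →* E)
    (M : Matrix (Fin 2) (Fin 2) R) (σ : G)
    (h : ξ σ + M.det • ξ σ⁻¹ = M.trace • (1 : E)) (k : ℕ) :
    ξ (σ ^ k) + (M ^ k).det • ξ (σ ^ k)⁻¹ = (M ^ k).trace • (1 : E) := by
  induction k using Nat.twoStepInduction with
  | zero =>
    simp only [pow_zero, map_one, inv_one, Matrix.det_one, one_smul, Matrix.trace_one,
      Fintype.card_fin]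
    rw [Nat.cast_ofNat, ← one_add_one_eq_two, add_smul, one_smul]
  | one => simpa using h
  | more k ih1 ih2 =>
    rw [trace_pow_add_two, sub_smul, mul_smul, mul_smul, ← ih1, ← ih2, Matrix.det_pow,
      Matrix.det_pow, Matrix.det_pow]
    have h3 : M.trace • (ξ (σ ^ (k + 1)) + M.det ^ (k + 1) • ξ (σ ^ (k + 1))⁻¹) =
        (M.trace • (1 : E)) * (ξ (σ ^ (k + 1)) + M.det ^ (k + 1) • ξ (σ ^ (k + 1))⁻¹) := by
      rw [smul_mul_assoc, one_mul]
    rw [h3, ← h, add_mul, mul_add, mul_add, ← map_mul, mul_smul_comm, ← map_mul, smul_mul_assoc,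
      ← map_mul, smul_mul_assoc, mul_smul_comm, ← map_mul, smul_smul]
    have e1 : σ * σ ^ (k + 1) = σ ^ (k + 1 + 1) := (pow_succ' σ (k + 1)).symm
    have e2 : σ * (σ ^ (k + 1))⁻¹ = (σ ^ k)⁻¹ := by rw [pow_succ']; group
    have e3 : σ⁻¹ * σ ^ (k + 1) = σ ^ k := by rw [pow_succ']; group
    have e4 : σ⁻¹ * (σ ^ (k + 1))⁻¹ = (σ ^ (k + 1 + 1))⁻¹ := by
      rw [← mul_inv_rev, ← pow_succ]
    rw [e1, e2, e3, e4, ← pow_succ', smul_add, smul_smul, ← pow_succ']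
    abel

end Matrix

section Act

variable {p n : ℕ} {X : Type*} [AddCommGroup X] [Module (ZMod (p ^ n)) X]
  [DistribMulAction Γℚ X]

/-- The action of `G_ℚ` on `X` as a homomorphism to the `ℤ/p^n`-linear endomorphisms. -/
def act (p n : ℕ) (X : Type*) [AddCommGroup X] [Module (ZMod (p ^ n)) X]
    [DistribMulAction Γℚ X] : Γℚ →* Module.End (ZMod (p ^ n)) X where
  toFun g := AddMonoidHom.toZModLinearMap (p ^ n) (DistribSMul.toAddMonoidHom X g)
  map_one' := by ext x; exact one_smul _ x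
  map_mul' g h := by ext x; exact mul_smul g h x

@[simp] theorem act_apply (g : Γℚ) (x : X) : act p n X g x = g • x := rfl

variable [hp : Fact p.Prime] {S : Finset ℕ} {a : ℕ → ℤ}
  {ρ : Γℚ →* Matrix (Fin 2) (Fin 2) (ZMod (p ^ n))}

/-- `ρ` is of finite level. -/
def FiniteLevel (ρ : Γℚ →* Matrix (Fin 2) (Fin 2) (ZMod (p ^ n))) : Prop :=
  ∃ L : IntermediateField ℚ Qbar, FiniteDimensional ℚ L ∧
    ∀ σ : Γℚ, (∀ y ∈ L, σ y = y) → ρ σ = 1

/-- The traces and determinants of Frobenius elements are `a ℓ` and `ℓ`, for `ℓ ∉ S`. -/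
def HasTraces (S : Finset ℕ) (a : ℕ → ℤ)
    (ρ : Γℚ →* Matrix (Fin 2) (Fin 2) (ZMod (p ^ n))) : Prop :=
  ∀ ℓ : ℕ, ℓ.Prime → ℓ ∉ S → ∀ B : ValuationSubring Qbar, B.LiesOverPrime ℓ →
    ∀ σ : Γℚ, B.IsFrobeniusAt σ ℓ → (ρ σ).trace = a ℓ ∧ (ρ σ).det = ℓ

/-- The relation `g + det ρ(g) g⁻¹ = tr ρ(g)` on `X`, for all `g`. -/
theorem act_relation (hlev : ∃ L : IntermediateField ℚ Qbar, FiniteDimensional ℚ L ∧
      ∀ σ : Γℚ, (∀ y ∈ L, σ y = y) → ∀ x : X, σ • x = x)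
    (hfrob : ∀ ℓ : ℕ, ℓ.Prime → ℓ ∉ S → ∀ B : ValuationSubring Qbar, B.LiesOverPrime ℓ →
      ∀ σ : Γℚ, B.IsFrobeniusAt σ ℓ → ∀ x : X, σ • σ • x - a ℓ • (σ • x) + ℓ • x = 0)
    (hρ : FiniteLevel ρ) (htr : HasTraces S a ρ) (g : Γℚ) :
    act p n X g + (ρ g).det • act p n X g⁻¹ = (ρ g).trace • 1 := by
  obtain ⟨L₁, hL₁, h₁⟩ := hlev
  obtain ⟨L₂, hL₂, h₂⟩ := hρ
  have hfd : FiniteDimensional ℚ (L₁ ⊔ L₂ : IntermediateField ℚ Qbar) :=
    IntermediateField.finiteDimensional_sup L₁ L₂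
  obtain ⟨ℓ, hℓ, hℓS, B, hB, σ, hσ, k, hk⟩ := CMP.Density.frobDensity (L₁ ⊔ L₂) g S
  have hfix : ∀ y ∈ (L₁ ⊔ L₂ : IntermediateField ℚ Qbar), ((σ ^ k)⁻¹ * g) y = y := by
    intro y hy
    rw [AlgEquiv.mul_apply, hk y hy, ← AlgEquiv.mul_apply, inv_mul_cancel, AlgEquiv.one_apply]
  have hX : ∀ x : X, g • x = σ ^ k • x := by
    intro x
    have := h₁ _ (fun y hy => hfix y ((le_sup_left : L₁ ≤ L₁ ⊔ L₂) hy)) x
    rwa [mul_smul, inv_smul_eq_iff] at this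
  have hact : act p n X g = act p n X (σ ^ k) := by
    ext x
    exact hX x
  have hact' : act p n X g⁻¹ = act p n X (σ ^ k)⁻¹ := by
    ext x
    show g⁻¹ • x = (σ ^ k)⁻¹ • x
    rw [inv_smul_eq_iff, hX, smul_inv_smul]
  have hρk : ρ g = ρ σ ^ k := by
    have := h₂ _ (fun y hy => hfix y ((le_sup_right : L₂ ≤ L₁ ⊔ L₂) hy))
    have h3 : ρ (σ ^ k * ((σ ^ k)⁻¹ * g)) = ρ (σ ^ k) := by
      rw [map_mul, this, mul_one]
    rwa [mul_inv_cancel_left, map_pow] at h3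
  rw [hact, hact', hρk]
  apply rel_pow
  obtain ⟨ht, hd⟩ := htr ℓ hℓ hℓS B hB σ hσ
  rw [ht, hd]
  ext x
  have h4 := hfrob ℓ hℓ hℓS B hB σ hσ (σ⁻¹ • x)
  rw [smul_inv_smul] at h4
  show σ • x + ((ℓ : ZMod (p ^ n)) • (σ⁻¹ • x)) = ((a ℓ : ℤ) : ZMod (p ^ n)) • x
  rw [Nat.cast_smul_eq_nsmul, Int.cast_smul_eq_zsmul]
  rw [sub_add_eq_add_sub, sub_eq_zero] at h4
  exact h4

/-- `ρ` as a representation on `T²`. -/
def linRep (ρ : Γℚ →* Matrix (Fin 2) (Fin 2) (ZMod (p ^ n))) :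
    Γℚ →* Module.End (ZMod (p ^ n)) (Fin 2 → ZMod (p ^ n)) :=
  (Matrix.toLinAlgEquiv' (R := ZMod (p ^ n)) (n := Fin 2)).toMonoidHom.comp ρ

theorem linRep_apply (g : Γℚ) : linRep ρ g = Matrix.toLin' (ρ g) := rfl

theorem det_linRep (g : Γℚ) : LinearMap.det (linRep ρ g) = (ρ g).det := by
  rw [linRep_apply, LinearMap.det_toLin']

theorem trace_linRep (g : Γℚ) :
    LinearMap.trace (ZMod (p ^ n)) (Fin 2 → ZMod (p ^ n)) (linRep ρ g) = (ρ g).trace := by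
  rw [linRep_apply, Matrix.trace_toLin'_eq]

theorem span_linRep (h : Submodule.span (ZMod (p ^ n)) (Set.range ρ) = ⊤) :
    Submodule.span (ZMod (p ^ n)) (Set.range (linRep ρ)) = ⊤ := by
  let e := (Matrix.toLinAlgEquiv' (R := ZMod (p ^ n)) (n := Fin 2)).toLinearEquiv
  have h1 : Set.range (linRep ρ) = e '' Set.range ρ := by
    rw [← Set.range_comp]; rfl
  rw [h1]
  have h2 := Submodule.map_span e.toLinearMap (Set.range ρ)
  rw [h, Submodule.map_top, LinearEquiv.range] at h2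
  exact h2.symm

/-- **Boston–Lenstra–Ribet**: the action on `X` factors through `M₂(T)`. -/
theorem exists_matrix_algHom (hlev : ∃ L : IntermediateField ℚ Qbar, FiniteDimensional ℚ L ∧
      ∀ σ : Γℚ, (∀ y ∈ L, σ y = y) → ∀ x : X, σ • x = x)
    (hfrob : ∀ ℓ : ℕ, ℓ.Prime → ℓ ∉ S → ∀ B : ValuationSubring Qbar, B.LiesOverPrime ℓ →
      ∀ σ : Γℚ, B.IsFrobeniusAt σ ℓ → ∀ x : X, σ • σ • x - a ℓ • (σ • x) + ℓ • x = 0)
    (hρ : FiniteLevel ρ) (htr : HasTraces S a ρ)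
    (hspan : Submodule.span (ZMod (p ^ n)) (Set.range ρ) = ⊤) :
    ∃ Ψ : Matrix (Fin 2) (Fin 2) (ZMod (p ^ n)) →ₐ[ZMod (p ^ n)] Module.End (ZMod (p ^ n)) X,
      ∀ g, Ψ (ρ g) = act p n X g := by
  obtain ⟨Ψ, hΨ⟩ := BLR.exists_algHom (ρ := linRep ρ) (ξ := act p n X)
    (Pi.basisFun (ZMod (p ^ n)) (Fin 2)) (fun g => by
      rw [det_linRep, trace_linRep]
      exact act_relation hlev hfrob hρ htr g) (span_linRep hspan)
  exact ⟨Ψ.comp (Matrix.toLinAlgEquiv' (R := ZMod (p ^ n)) (n := Fin 2)).toAlgHom, hΨ⟩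

/-- The kernel of `ρ` acts trivially on `X`. -/
theorem smul_eq_of_rho_eq_one (hlev : ∃ L : IntermediateField ℚ Qbar, FiniteDimensional ℚ L ∧
      ∀ σ : Γℚ, (∀ y ∈ L, σ y = y) → ∀ x : X, σ • x = x)
    (hfrob : ∀ ℓ : ℕ, ℓ.Prime → ℓ ∉ S → ∀ B : ValuationSubring Qbar, B.LiesOverPrime ℓ →
      ∀ σ : Γℚ, B.IsFrobeniusAt σ ℓ → ∀ x : X, σ • σ • x - a ℓ • (σ • x) + ℓ • x = 0)
    (hρ : FiniteLevel ρ) (htr : HasTraces S a ρ)
    (hspan : Submodule.span (ZMod (p ^ n)) (Set.range ρ) = ⊤) {g : Γℚ} (hg : ρ g = 1) (x : X) :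
    g • x = x := by
  obtain ⟨Ψ, hΨ⟩ := exists_matrix_algHom hlev hfrob hρ htr hspan
  have h := hΨ g
  rw [hg, map_one] at h
  exact (LinearMap.congr_fun h x).symm

/-- If `Ψ A = 0` then the entries of `A` kill `X`. -/
theorem entry_smul_eq_zero
    (Ψ : Matrix (Fin 2) (Fin 2) (ZMod (p ^ n)) →ₐ[ZMod (p ^ n)] Module.End (ZMod (p ^ n)) X)
    {A : Matrix (Fin 2) (Fin 2) (ZMod (p ^ n))} (hA : Ψ A = 0) (i j : Fin 2) (x : X) :
    A i j • x = 0 := by
  have h1 : ∑ k : Fin 2, Matrix.single k i (1 : ZMod (p ^ n)) * A * Matrix.single j k 1 =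
      A i j • (1 : Matrix (Fin 2) (Fin 2) (ZMod (p ^ n))) := by
    ext u v
    simp only [Matrix.sum_apply, Fin.sum_univ_two, Matrix.mul_apply, Matrix.single_apply,
      Matrix.smul_apply, Matrix.one_apply]
    fin_cases u <;> fin_cases v <;> fin_cases i <;> fin_cases j <;> simp
  have h2 : Ψ (A i j • (1 : Matrix (Fin 2) (Fin 2) (ZMod (p ^ n)))) = 0 := by
    rw [← h1, map_sum]
    apply Finset.sum_eq_zero
    intro k _
    rw [map_mul, map_mul, hA, mul_zero, zero_mul]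
  rw [map_smul, map_one] at h2
  exact LinearMap.congr_fun h2 x

/-- If `g` acts on `X` as the integer `c`, the entries of `ρ(g) - c` kill `X`. -/
theorem entry_smul_of_scalar (hlev : ∃ L : IntermediateField ℚ Qbar, FiniteDimensional ℚ L ∧
      ∀ σ : Γℚ, (∀ y ∈ L, σ y = y) → ∀ x : X, σ • x = x)
    (hfrob : ∀ ℓ : ℕ, ℓ.Prime → ℓ ∉ S → ∀ B : ValuationSubring Qbar, B.LiesOverPrime ℓ →
      ∀ σ : Γℚ, B.IsFrobeniusAt σ ℓ → ∀ x : X, σ • σ • x - a ℓ • (σ • x) + ℓ • x = 0)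
    (hρ : FiniteLevel ρ) (htr : HasTraces S a ρ)
    (hspan : Submodule.span (ZMod (p ^ n)) (Set.range ρ) = ⊤) {g : Γℚ} {c : ℤ}
    (hg : ∀ x : X, g • x = c • x) (i j : Fin 2) (x : X) :
    (ρ g - (c : ZMod (p ^ n)) • (1 : Matrix (Fin 2) (Fin 2) (ZMod (p ^ n)))) i j • x = 0 := by
  obtain ⟨Ψ, hΨ⟩ := exists_matrix_algHom hlev hfrob hρ htr hspan
  refine entry_smul_eq_zero Ψ ?_ i j x
  rw [map_sub, hΨ, map_smul, map_one, sub_eq_zero]
  ext y
  show g • y = ((c : ℤ) : ZMod (p ^ n)) • y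
  rw [hg, Int.cast_smul_eq_zsmul]

end Act

section NonScalar

variable {R : Type*} [CommRing R]

/-- A matrix which is not scalar modulo any maximal ideal (for a local ring). -/
def NonScalar (M : Matrix (Fin 2) (Fin 2) R) : Prop :=
  IsUnit (M 0 1) ∨ IsUnit (M 1 0) ∨ IsUnit (M 0 0 - M 1 1)

variable {p n : ℕ} {X : Type*} [AddCommGroup X] [Module (ZMod (p ^ n)) X]
  [DistribMulAction Γℚ X] [hp : Fact p.Prime] {S : Finset ℕ} {a : ℕ → ℤ}
  {ρ : Γℚ →* Matrix (Fin 2) (Fin 2) (ZMod (p ^ n))}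

/-- If `ρ(g)` is not scalar then `g` does not act as a scalar on `X ≠ 0`. -/
theorem eq_zero_of_scalar (hlev : ∃ L : IntermediateField ℚ Qbar, FiniteDimensional ℚ L ∧
      ∀ σ : Γℚ, (∀ y ∈ L, σ y = y) → ∀ x : X, σ • x = x)
    (hfrob : ∀ ℓ : ℕ, ℓ.Prime → ℓ ∉ S → ∀ B : ValuationSubring Qbar, B.LiesOverPrime ℓ →
      ∀ σ : Γℚ, B.IsFrobeniusAt σ ℓ → ∀ x : X, σ • σ • x - a ℓ • (σ • x) + ℓ • x = 0)
    (hρ : FiniteLevel ρ) (htr : HasTraces S a ρ)
    (hspan : Submodule.span (ZMod (p ^ n)) (Set.range ρ) = ⊤) {g : Γℚ} {c : ℤ}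
    (hg : ∀ x : X, g • x = c • x) (hns : NonScalar (ρ g)) (x : X) : x = 0 := by
  have key := fun i j => entry_smul_of_scalar hlev hfrob hρ htr hspan hg i j x
  have hu : ∀ {t : ZMod (p ^ n)}, IsUnit t → t • x = 0 → x = 0 := by
    rintro _ ⟨u, rfl⟩ h
    have h1 := congrArg ((↑u⁻¹ : ZMod (p ^ n)) • ·) h
    simpa [smul_smul] using h1
  rcases hns with h | h | h
  · have := key 0 1
    simp only [Matrix.sub_apply, Matrix.smul_apply, Matrix.one_apply, Fin.isValue, zero_ne_one,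
      if_false, smul_zero, sub_zero] at this
    exact hu h this
  · have := key 1 0
    simp only [Matrix.sub_apply, Matrix.smul_apply, Matrix.one_apply, Fin.isValue, one_ne_zero,
      if_false, smul_zero, sub_zero] at this
    exact hu h this
  · have h0 := key 0 0
    have h1 := key 1 1
    have h2 : (ρ g 0 0 - ρ g 1 1) • x = 0 := by
      have h3 : ρ g 0 0 - ρ g 1 1 =
          (ρ g - (c : ZMod (p ^ n)) • (1 : Matrix (Fin 2) (Fin 2) (ZMod (p ^ n)))) 0 0 -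
          (ρ g - (c : ZMod (p ^ n)) • (1 : Matrix (Fin 2) (Fin 2) (ZMod (p ^ n)))) 1 1 := by
        simp
      rw [h3, sub_smul, h0, h1, sub_zero]
    exact hu h h2

end NonScalar

section Odd

variable {n : ℕ} {S : Finset ℕ} {a : ℕ → ℤ}
  {ρ : Γℚ →* Matrix (Fin 2) (Fin 2) (ZMod (2 ^ n))}

/-- (`p = 2`) There is `ℓ ∉ S` with `a_ℓ` odd. -/
theorem exists_odd_trace (hn : 0 < n) (hρ : FiniteLevel ρ) (htr : HasTraces S a ρ)
    (hspan : Submodule.span (ZMod (2 ^ n)) (Set.range ρ) = ⊤) :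
    ∃ ℓ : ℕ, ℓ.Prime ∧ ℓ ∉ S ∧ Odd (a ℓ) := by
  by_contra hcon
  push Not at hcon
  -- reduction modulo `2`
  let red : ZMod (2 ^ n) →+* ZMod 2 := ZMod.castHom (dvd_pow_self 2 hn.ne') (ZMod 2)
  have hS : ∀ g : Γℚ, red (ρ g).trace = 0 := by
    intro g
    obtain ⟨L, hL, h⟩ := hρ
    obtain ⟨ℓ, hℓ, hℓS, B, hB, σ, hσ, k, hk⟩ := CMP.Density.frobDensity L g S
    have hfix : ∀ y ∈ L, ((σ ^ k)⁻¹ * g) y = y := by
      intro y hy
      rw [AlgEquiv.mul_apply, hk y hy, ← AlgEquiv.mul_apply, inv_mul_cancel, AlgEquiv.one_apply]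
    have hρk : ρ g = ρ σ ^ k := by
      have h3 : ρ (σ ^ k * ((σ ^ k)⁻¹ * g)) = ρ (σ ^ k) := by
        rw [map_mul, h _ hfix, mul_one]
      rwa [mul_inv_cancel_left, map_pow] at h3
    have h0 : red (ρ σ).trace = 0 := by
      rw [(htr ℓ hℓ hℓS B hB σ hσ).1, map_intCast]
      have h4 : Even (a ℓ) := Int.not_odd_iff_even.mp (hcon ℓ hℓ hℓS)
      exact (ZMod.intCast_zmod_eq_zero_iff_dvd _ 2).mpr (by exact_mod_cast h4.two_dvd)
    rw [hρk]
    clear hρk hfix hk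
    induction k using Nat.twoStepInduction with
    | zero =>
      rw [pow_zero, Matrix.trace_one, Fintype.card_fin, map_natCast]
      rfl
    | one => rwa [pow_one]
    | more k ih1 ih2 =>
      rw [trace_pow_add_two, map_sub, map_mul, map_mul, h0, ih1, zero_mul, mul_zero, sub_zero]
  have h1 : ∀ M : Matrix (Fin 2) (Fin 2) (ZMod (2 ^ n)), red M.trace = 0 := by
    intro M
    have hM : M ∈ Submodule.span (ZMod (2 ^ n)) (Set.range ρ) := hspan ▸ Submodule.mem_top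
    induction hM using Submodule.span_induction with
    | mem x hx => obtain ⟨g, rfl⟩ := hx; exact hS g
    | zero => rw [Matrix.trace_zero, map_zero]
    | add x y _ _ hx hy => rw [Matrix.trace_add, map_add, hx, hy, add_zero]
    | smul t x _ hx => rw [Matrix.trace_smul, smul_eq_mul, map_mul, hx, mul_zero]
  have h2 := h1 (Matrix.single 0 0 1)
  rw [Matrix.trace_single_eq_same, map_one] at h2
  exact one_ne_zero h2

end Odd

end Fermat.Agent.P2.Mazur2k
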