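import Fermat.Agent.DR.AllInputs
import Fermat.Agent.P2.Mazur2k.Galois

/-!
# P2, block 6B: the Galois action on eigenvectors in `J₀(N)[p^n]`
-/

set_option autoImplicit false
set_option linter.unusedSectionVars false

noncomputable section

open ModularCurve Fermat.Agent.S30Assembly

namespace Fermat.Agent.P2.Mazur2k

local notation "Qbar" => AlgebraicClosure ℚ
local notation "Γℚ" => (AlgebraicClosure ℚ ≃ₐ[ℚ] AlgebraicClosure ℚ)

/-- `x` is an eigenvector of the `T_ℓ`, `ℓ ∉ S`, with eigenvalues `a ℓ`. -/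
def IsEigen (N : ℕ) [NeZero N] (S : Finset ℕ) (a : ℕ → ℤ) (x : JZero N) : Prop :=
  ∀ ℓ : Nat.Primes, (ℓ : ℕ) ∉ S → heckeOperatorBar N ℓ x = a ℓ • x

section Comm

variable {J : Type*} [AddCommGroup J]

theorem nsmul_comm' (a b : ℕ) (z : J) : a • b • z = b • a • z := by
  rw [← mul_nsmul', ← mul_nsmul', mul_comm]

theorem zsmul_comm' (a b : ℤ) (z : J) : a • b • z = b • a • z := by
  rw [← mul_zsmul, ← mul_zsmul, mul_comm]

theorem nsmul_zsmul_comm' (a : ℕ) (b : ℤ) (z : J) : a • b • z = b • a • z := by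
  rw [← natCast_zsmul, ← natCast_zsmul, zsmul_comm']

end Comm

section Basic

variable {N : ℕ} [NeZero N] {S : Finset ℕ} {a : ℕ → ℤ} {x y : JZero N}

theorem IsEigen.add (hx : IsEigen N S a x) (hy : IsEigen N S a y) : IsEigen N S a (x + y) := by
  intro ℓ hℓ
  rw [map_add, hx ℓ hℓ, hy ℓ hℓ, zsmul_add]

theorem IsEigen.zero : IsEigen N S a (0 : JZero N) := by
  intro ℓ hℓ
  rw [map_zero, zsmul_zero]

theorem IsEigen.zsmul (hx : IsEigen N S a x) (c : ℤ) : IsEigen N S a (c • x) := by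
  intro ℓ hℓ
  rw [map_zsmul, hx ℓ hℓ, ← mul_zsmul, ← mul_zsmul, mul_comm]

theorem IsEigen.neg (hx : IsEigen N S a x) : IsEigen N S a (-x) := by
  have := hx.zsmul (-1)
  rwa [neg_one_zsmul] at this

theorem IsEigen.nsmul (hx : IsEigen N S a x) (c : ℕ) : IsEigen N S a (c • x) := by
  have := hx.zsmul c
  rwa [natCast_zsmul] at this

theorem IsEigen.smul (hx : IsEigen N S a x) (g : Γℚ) : IsEigen N S a (g • x) := by
  intro ℓ hℓ
  rw [Fermat.Agent.Jan.GaloisHecke.heckeOperatorBar_smul, hx ℓ hℓ]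
  exact map_zsmul (DistribSMul.toAddMonoidHom (JZero N) g) (a ℓ) x

theorem jz_smul_nsmul (g : Γℚ) (c : ℕ) (x : JZero N) : g • (c • x) = c • (g • x) :=
  map_nsmul (DistribSMul.toAddMonoidHom (JZero N) g) c x

theorem jz_smul_zero (g : Γℚ) : g • (0 : JZero N) = 0 :=
  map_zero (DistribSMul.toAddMonoidHom (JZero N) g)

theorem jz_smul_zsmul (g : Γℚ) (c : ℤ) (x : JZero N) : g • (c • x) = c • (g • x) :=
  map_zsmul (DistribSMul.toAddMonoidHom (JZero N) g) c x

theorem IsEigen.mono (hx : IsEigen N S a x) {S' : Finset ℕ} (h : S ⊆ S') : IsEigen N S' a x :=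
  fun ℓ hℓ => hx ℓ fun h' => hℓ (h h')

end Basic

section Galois

variable (N p : ℕ) [NeZero N]

/-- The `p^n`-torsion of `J₀(N)` is of finite level. -/
theorem jzero_finite_level (hp : p.Prime) (n : ℕ) :
    ∃ L : IntermediateField ℚ Qbar, FiniteDimensional ℚ L ∧
      ∀ σ : Γℚ, (∀ y ∈ L, σ y = y) → ∀ x : JZero N, p ^ n • x = 0 → σ • x = x := by
  have G := Fermat.Agent.GAL.Final.galInputs Fermat.Agent.DR.allInputs N p hp
  letI := heckeModuleBar N
  haveI : SMulCommClass Γℚ HeckeAlg (JZero N) := G.galois_hecke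
  have hsm : ∀ x : JZero N, ∃ L : IntermediateField ℚ Qbar, FiniteDimensional ℚ L ∧
      ∀ g : Γℚ, (∀ y ∈ L, g y = y) → g • x = x := G.smooth
  exact Fermat.Agent.S30Wiring.finite_level_of_smooth (J := JZero N) hsm n (G.finite n)

variable {N p}

/-- The Eichler–Shimura relation. -/
theorem jzero_frobenius (hp : p.Prime) {n : ℕ} {ℓ : ℕ} (hℓ : ℓ.Prime) (hℓN : ¬ ℓ ∣ N * p)
    {B : ValuationSubring Qbar} (hB : B.LiesOverPrime ℓ) {σ : Γℚ} (hσ : B.IsFrobeniusAt σ ℓ)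
    {x : JZero N} (hx : p ^ n • x = 0) :
    σ • σ • x - heckeOperatorBar N ⟨ℓ, hℓ⟩ (σ • x) + ℓ • x = 0 := by
  have G := Fermat.Agent.GAL.Final.galInputs Fermat.Agent.DR.allInputs N p hp
  letI := heckeModuleBar N
  haveI : SMulCommClass Γℚ HeckeAlg (JZero N) := G.galois_hecke
  have hspec : SpecializationExists (K := ℚ) (L := Qbar) N p (JZero N) :=
    G.specialization G.galois_hecke
  have h := Fermat.Agent.S30Wiring.frobeniusQuadratic_of_specialization hspec ℓ hℓ hℓN B hB σ hσ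
    x ⟨n, hx⟩
  rw [← heckeModuleBar_heckeGen_smul (Fermat.Agent.DR.allInputs.comm N) ⟨ℓ, hℓ⟩ (σ • x)]
  exact h

end Galois

section Stable

variable {G J : Type*} [Group G] [AddCommGroup J] [DistribMulAction G J]

/-- The action on a stable subgroup. -/
@[implicit_reducible]
def stableAction (Z : AddSubgroup J) (hZ : ∀ (g : G) (z : J), z ∈ Z → g • z ∈ Z) :
    DistribMulAction G Z where
  smul g z := ⟨g • (z : J), hZ g z z.2⟩
  one_smul z := Subtype.ext (one_smul G (z : J))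
  mul_smul g h z := Subtype.ext (mul_smul g h (z : J))
  smul_zero g := Subtype.ext (smul_zero g)
  smul_add g z z' := Subtype.ext (smul_add g (z : J) (z' : J))

end Stable

section Torsion

variable {N p n : ℕ} [NeZero N] [hp : Fact p.Prime] {S : Finset ℕ} {a : ℕ → ℤ}
  {ρ : Γℚ →* Matrix (Fin 2) (Fin 2) (ZMod (p ^ n))}

/-- `ker ρ` acts trivially on the eigenvectors in `J₀(N)[p^n]`. -/
theorem smul_eq_of_isEigen (hpS : p ∈ S) (hNS : ∀ r : ℕ, r.Prime → r ∣ N → r ∈ S)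
    (hρ : FiniteLevel ρ) (htr : HasTraces S a ρ)
    (hspan : Submodule.span (ZMod (p ^ n)) (Set.range ρ) = ⊤) {g : Γℚ} (hg : ρ g = 1)
    {x : JZero N} (hx : p ^ n • x = 0) (hxe : IsEigen N S a x) : g • x = x := by
  let Z : AddSubgroup (JZero N) :=
    { carrier := {z | p ^ n • z = 0 ∧ IsEigen N S a z}
      zero_mem' := ⟨nsmul_zero _, IsEigen.zero⟩
      add_mem' := fun {z z'} h h' => ⟨by rw [nsmul_add, h.1, h'.1, add_zero], h.2.add h'.2⟩
      neg_mem' := fun {z} h => ⟨by rw [neg_nsmul, h.1, neg_zero], h.2.neg⟩ }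
  have hstab : ∀ (g : Γℚ) (z : JZero N), z ∈ Z → g • z ∈ Z := fun g z hz =>
    ⟨by rw [← jz_smul_nsmul, hz.1, jz_smul_zero], hz.2.smul g⟩
  letI : DistribMulAction Γℚ Z := stableAction Z hstab
  letI : Module (ZMod (p ^ n)) Z := AddCommGroup.zmodModule fun z => Subtype.ext z.2.1
  obtain ⟨L, hL, h⟩ := jzero_finite_level N p hp.out n
  have key := smul_eq_of_rho_eq_one (p := p) (n := n) (X := Z) (S := S) (a := a) (ρ := ρ)
    ⟨L, hL, fun σ hσ z => Subtype.ext (h σ hσ z z.2.1)⟩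
    (fun ℓ hℓ hℓS B hB σ hσ z => by
      apply Subtype.ext
      have hℓN : ¬ ℓ ∣ N * p := by
        intro hd
        rcases (Nat.Prime.dvd_mul hℓ).mp hd with hd | hd
        · exact hℓS (hNS ℓ hℓ hd)
        · exact hℓS ((Nat.prime_dvd_prime_iff_eq hℓ hp.out).mp hd ▸ hpS)
      have h1 := jzero_frobenius hp.out hℓ hℓN hB hσ z.2.1
      rw [(z.2.2.smul σ) ⟨ℓ, hℓ⟩ hℓS] at h1
      exact h1) hρ htr hspan hg ⟨x, hx, hxe⟩
  exact congrArg Subtype.val key

/-- If `ρ(g)` is not scalar then `g` does not act as a scalar on a non-zero stable subgroup of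
eigenvectors in `J₀(N)[p^n]`. -/
theorem eq_zero_of_stable (hpS : p ∈ S) (hNS : ∀ r : ℕ, r.Prime → r ∣ N → r ∈ S)
    (hρ : FiniteLevel ρ) (htr : HasTraces S a ρ)
    (hspan : Submodule.span (ZMod (p ^ n)) (Set.range ρ) = ⊤) {g : Γℚ} (hns : NonScalar (ρ g))
    (Z : AddSubgroup (JZero N)) (hstab : ∀ (g : Γℚ) (z : JZero N), z ∈ Z → g • z ∈ Z)
    (hZ : ∀ z ∈ Z, p ^ n • z = 0 ∧ IsEigen N S a z) {c : ℤ} (hc : ∀ z ∈ Z, g • z = c • z)
    {x : JZero N} (hx : x ∈ Z) : x = 0 := by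
  letI : DistribMulAction Γℚ Z := stableAction Z hstab
  letI : Module (ZMod (p ^ n)) Z := AddCommGroup.zmodModule fun z => Subtype.ext (hZ z z.2).1
  obtain ⟨L, hL, h⟩ := jzero_finite_level N p hp.out n
  have key := eq_zero_of_scalar (p := p) (n := n) (X := Z) (S := S) (a := a) (ρ := ρ)
    ⟨L, hL, fun σ hσ z => Subtype.ext (h σ hσ z (hZ z z.2).1)⟩
    (fun ℓ hℓ hℓS B hB σ hσ z => by
      apply Subtype.ext
      have hℓN : ¬ ℓ ∣ N * p := by
        intro hd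
        rcases (Nat.Prime.dvd_mul hℓ).mp hd with hd | hd
        · exact hℓS (hNS ℓ hℓ hd)
        · exact hℓS ((Nat.prime_dvd_prime_iff_eq hℓ hp.out).mp hd ▸ hpS)
      have h1 := jzero_frobenius hp.out hℓ hℓN hB hσ (hZ z z.2).1
      rw [((hZ z z.2).2.smul σ) ⟨ℓ, hℓ⟩ hℓS] at h1
      exact h1) hρ htr hspan (c := c) (fun z => Subtype.ext (hc z z.2)) hns ⟨x, hx⟩
  exact congrArg Subtype.val key

end Torsion

end Fermat.Agent.P2.Mazur2k
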