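import Fermat.Agent.P2.Mazur2k.Transfer
import Fermat.Agent.P2.Mazur2k.JZeroGal
import Fermat.Agent.DR.ModGal.ALJ
import Fermat.Agent.DR.ModGal.SwapInst
import Fermat.Agent.DR.ModGal.Unipotent

/-!
# P2, block 6B: the Mazur principle modulo `2^n`

`mazur_step_of_geo`: an element of order `> 2^(i+3)` of `J₀(Mq)[2^n]` which is an eigenvector for
the `T_ℓ` with eigenvalues `a ℓ = tr ρ(Frob_ℓ)`, `ρ` unramified at `q` with `ρ(Frob_q)` non scalar
modulo `2`, gives such an element of order `> 2^i` of `J₀(M)[2^n]`.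
-/

set_option autoImplicit false
set_option linter.unusedSectionVars false

noncomputable section

open AlgebraicCurve ModularCurve IntermediateField
open Fermat.Agent.RR Fermat.Agent.JRED Fermat.Agent.DR Fermat.Agent.DR.Mod Fermat.Agent.DR.ModGal
open Fermat.Agent.JRED.AL Fermat.Agent.S30Assembly

namespace Fermat.Agent.P2.Mazur2k

local notation "Qbar" => AlgebraicClosure ℚ
local notation "Γℚ" => (AlgebraicClosure ℚ ≃ₐ[ℚ] AlgebraicClosure ℚ)

section Step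

variable {A : ValuationSubring Qbar} {k : Type} [Field k] {π : A →+* k}
  {M q : ℕ} [NeZero M] [NeZero q] [hq : Fact q.Prime]
  {w : laurentBaseChange Qbar (modularFunctionFieldFull (M * q)) ≃ₐ[Qbar]
      laurentBaseChange Qbar (modularFunctionFieldFull (M * q))}
  [FunctionField Qbar (modularFunctionFieldBar (M * q))]
  [FunctionField Qbar (modularFunctionFieldBar M)]
  [FunctionField k (modularFunctionFieldFullC k M)] [IsAlgClosed k] [CharP k q] [ExpChar k q]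
  [PerfectRing k q]

/-- **The geometric input**: an inertia-fixed `m`-torsion eigenclass has, up to the factor
`12 (a - ℓ - 1)`, a specialisation. -/
def Geo (A : ValuationSubring Qbar) {k : Type} [Field k] {π : A →+* k} {M q : ℕ} [NeZero M]
    [NeZero q] [FunctionField Qbar (modularFunctionFieldBar (M * q))]
    [FunctionField k (modularFunctionFieldFullC k M)]
    (X : NodalDatum Qbar (modularFunctionFieldBar (M * q)) k
      (modularFunctionFieldFullC k M) (modularFunctionFieldFullC k M) A π) : Prop :=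
  ∀ (m : ℕ) (x : JZero (M * q)) (ℓ : Nat.Primes) (a : ℤ), (m : k) ≠ 0 → m • x = 0 →
    (∀ τ ∈ A.inertiaSubgroupIn ℚ, τ • x = x) → ¬ (ℓ : ℕ) ∣ M * q →
    heckeOperatorBar (M * q) ℓ x = a • x →
    ∃ y₁ y₂, Spec X m ((12 * (a - ℓ - 1)) • (x : Pic0 Qbar (modularFunctionFieldBar (M * q))))
      y₁ y₂

variable {X : NodalDatum Qbar (modularFunctionFieldBar (M * q)) k
      (modularFunctionFieldFullC k M) (modularFunctionFieldFullC k M) A π}

variable {n : ℕ} {S : Finset ℕ} {a : ℕ → ℤ}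
  {ρ : Γℚ →* Matrix (Fin 2) (Fin 2) (ZMod (2 ^ n))}

theorem Spec.zsmul' {m : ℕ} (hπ : Function.Surjective π)
    {x : Pic0 Qbar (modularFunctionFieldBar (M * q))}
    {y₁ y₂ : Pic0 k (modularFunctionFieldFullC k M)} (hm : 0 < m) (h : Spec X m x y₁ y₂) (c : ℤ) :
    Spec X m (c • x) (c • y₁) (c • y₂) := by
  obtain ⟨b, rfl | rfl⟩ := c.eq_nat_or_neg
  · rw [natCast_zsmul, natCast_zsmul, natCast_zsmul]
    exact h.nsmul hm b
  · rw [neg_zsmul, neg_zsmul, neg_zsmul, natCast_zsmul, natCast_zsmul, natCast_zsmul]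
    exact (h.nsmul hm b).neg hπ

/-- `4 z` has a specialisation. -/
theorem exists_spec_four (hπ : Function.Surjective π) (hgeo : Geo A X)
    (hmk : ((2 ^ n : ℕ) : k) ≠ 0) {ℓ : Nat.Primes} (hℓ2 : (ℓ : ℕ) ≠ 2) (hℓM : ¬ (ℓ : ℕ) ∣ M * q)
    {a : ℤ} (ha : Odd a) {x : JZero (M * q)} (hx : 2 ^ n • x = 0)
    (hI : ∀ τ ∈ A.inertiaSubgroupIn ℚ, τ • x = x) (hT : heckeOperatorBar (M * q) ℓ x = a • x) :
    ∃ y₁ y₂, Spec X (2 ^ n) (4 • (x : Pic0 Qbar (modularFunctionFieldBar (M * q)))) y₁ y₂ := by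
  obtain ⟨y₁, y₂, h⟩ := hgeo (2 ^ n) x ℓ a hmk hx hI hℓM hT
  have hodd : Odd (3 * (a - ℓ - 1)) := by
    have h1 : Odd (ℓ : ℤ) := by
      have := ℓ.2.eq_two_or_odd'
      exact_mod_cast this.resolve_left hℓ2
    have h3 : Odd (3 : ℤ) := by decide
    exact h3.mul ((ha.sub_odd h1).sub_odd odd_one)
  -- an inverse modulo `2^n`
  obtain ⟨e, d, he⟩ : ∃ e d : ℤ, e * (3 * (a - ℓ - 1)) + d * 2 ^ n = 1 := by
    have h2 : IsCoprime (3 * (a - ℓ - 1)) ((2 : ℤ) ^ n) := by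
      apply IsCoprime.pow_right
      obtain ⟨b, hb⟩ := hodd
      exact ⟨1, -b, by rw [hb]; ring⟩
    obtain ⟨e, d, h3⟩ := h2
    exact ⟨e, d, h3⟩
  refine ⟨e • y₁, e • y₂, ?_⟩
  have h4 := Spec.zsmul' hπ (pow_pos two_pos n) h e
  have h5 : (e • (12 * (a - ℓ - 1)) • (x : Pic0 Qbar (modularFunctionFieldBar (M * q)))) =
      4 • (x : Pic0 Qbar (modularFunctionFieldBar (M * q))) := by
    have h6 : e * (12 * (a - ℓ - 1)) = 4 - 4 * d * 2 ^ n := by linear_combination 4 * he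
    have h7 : ((2 : ℤ) ^ n) • (x : Pic0 Qbar (modularFunctionFieldBar (M * q))) = 0 := by
      have : ((2 ^ n : ℕ) : ℤ) • (x : Pic0 Qbar (modularFunctionFieldBar (M * q))) = 0 := by
        rw [natCast_zsmul]; exact hx
      rwa [Nat.cast_pow, Nat.cast_ofNat] at this
    rw [smul_smul, h6, sub_smul, mul_smul (4 * d), h7, smul_zero, sub_zero]
    exact natCast_zsmul _ 4
  rwa [h5] at h4

/-- Frobenius acts as a scalar on the toric part of the `w`-eigenspaces. -/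
theorem frob_torus_scalar (S' : Setup π w) (hX : IsModularNodal S' X) (hdeg : DegreeInput M k)
    (hgood : GoodReduction M k) (hw : ∀ f, w (w f) = f) {σ : Γℚ} (hσ : A.IsFrobeniusAt σ q)
    {m : ℕ} (hmk : (m : k) ≠ 0) {δ : ℤ} (hδ : δ * δ = 1) {x : JZero (M * q)}
    (hxδ : wJ w x = δ • x) (h : InTorus X m x) : σ • x = (-(q * δ)) • x := by
  have h1 := frob_w_torus S' hdeg hgood hX.eq₁ hX.eq₂ hX.shift hw hσ hmk h
  have h2 : (SemilinearAut.ofAlgAut w • (x : Pic0 Qbar (modularFunctionFieldBar (M * q))) :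
      JZero (M * q)) = δ • x := hxδ
  rw [h2, jz_smul_zsmul] at h1
  have h3 := congrArg (fun t : JZero (M * q) => δ • t) h1
  rw [← mul_zsmul, hδ, one_zsmul] at h3
  rw [h3, zsmul_neg, ← natCast_zsmul, ← mul_zsmul, neg_zsmul, mul_comm δ]

/-- **The core of the Mazur principle modulo `2^n`.** -/
theorem exists_big_spec (S' : Setup π w) (hX : IsModularNodal S' X) (hdeg : DegreeInput M k)
    (hgood : GoodReduction M k) (hgeo : Geo A X) (hw : ∀ f, w (w f) = f)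
    (hn : 0 < n) (h2S : 2 ∈ S) (hMS : ∀ r : ℕ, r.Prime → r ∣ M * q → r ∈ S)
    (hq2 : q ≠ 2)
    (hρ : FiniteLevel ρ) (htr : HasTraces S a ρ)
    (hspan : Submodule.span (ZMod (2 ^ n)) (Set.range ρ) = ⊤)
    (hunr : ∀ τ ∈ A.inertiaSubgroupIn ℚ, ρ τ = 1)
    {σ : Γℚ} (hσ : A.IsFrobeniusAt σ q) (hns : NonScalar (ρ σ))
    {δ : ℤ} (hδ : δ * δ = 1) {x : JZero (M * q)} (hx : 2 ^ n • x = 0)
    (hxe : IsEigen (M * q) S a x) (hxδ : wJ w x = δ • x) {i : ℕ} (hi : 2 ^ (i + 2) • x ≠ 0) :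
    ∃ (z : JZero (M * q)) (y₁ y₂ : Pic0 k (modularFunctionFieldFullC k M)),
      IsEigen (M * q) S a z ∧ Spec X (2 ^ n) z y₁ y₂ ∧ (2 ^ i • y₁ ≠ 0 ∨ 2 ^ i • y₂ ≠ 0) := by
  by_contra hcon
  push Not at hcon
  have hmk : ((2 ^ n : ℕ) : k) ≠ 0 := by
    rw [Nat.cast_pow, Nat.cast_ofNat]
    refine pow_ne_zero n fun h => hq2 ?_
    have h' : ((2 : ℕ) : k) = 0 := by exact_mod_cast h
    exact (Nat.prime_dvd_prime_iff_eq hq.out Nat.prime_two).mp ((CharP.cast_eq_zero_iff k q 2).mp h')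
  obtain ⟨ℓ, hℓ, hℓS, hodd⟩ := exists_odd_trace hn hρ htr hspan
  have hℓ2 : ℓ ≠ 2 := fun h => hℓS (h ▸ h2S)
  have hℓM : ¬ ℓ ∣ M * q := fun h => hℓS (hMS ℓ hℓ h)
  let Z : AddSubgroup (JZero (M * q)) :=
    { carrier := {z | 2 ^ n • z = 0 ∧ IsEigen (M * q) S a z ∧ wJ w z = δ • z}
      zero_mem' := ⟨nsmul_zero _, IsEigen.zero, by rw [map_zero, zsmul_zero]⟩
      add_mem' := fun {z z'} h h' => ⟨by rw [nsmul_add, h.1, h'.1, add_zero], h.2.1.add h'.2.1, by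
        rw [map_add, h.2.2, h'.2.2, zsmul_add]⟩
      neg_mem' := fun {z} h => ⟨by rw [neg_nsmul, h.1, neg_zero], h.2.1.neg, by
        rw [map_neg, h.2.2, zsmul_neg]⟩ }
  have hZ : ∀ z, z ∈ Z ↔ 2 ^ n • z = 0 ∧ IsEigen (M * q) S a z ∧ wJ w z = δ • z := fun z => Iff.rfl
  have hstab : ∀ (g : Γℚ) (z : JZero (M * q)), z ∈ Z → g • z ∈ Z := fun g z hz =>
    ⟨by rw [← jz_smul_nsmul, hz.1, jz_smul_zero], hz.2.1.smul g, by
      rw [wJ_galois hq.out S'.al, hz.2.2, jz_smul_zsmul]⟩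
  have htorus : ∀ z ∈ Z, InTorus X (2 ^ n) (2 ^ (i + 2) • z : JZero (M * q)) := by
    intro z hz
    obtain ⟨y₁, y₂, h⟩ := exists_spec_four (ℓ := ⟨ℓ, hℓ⟩) S'.surj hgeo hmk hℓ2 hℓM hodd hz.1
      (fun τ hτ => smul_eq_of_isEigen h2S hMS hρ htr hspan (hunr τ hτ) hz.1 hz.2.1)
      (hz.2.1 ⟨ℓ, hℓ⟩ hℓS)
    obtain ⟨e1, e2⟩ := hcon _ y₁ y₂ (hz.2.1.nsmul 4) h
    have h1 := h.nsmul (pow_pos two_pos n) (2 ^ i)
    rw [e1, e2] at h1
    have h2 := h1.inTorus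
    have h3 : 2 ^ i • 4 • z = 2 ^ (i + 2) • z := by
      rw [← mul_nsmul', pow_add]; norm_num
    rw [← h3]
    exact h2
  refine hi (eq_zero_of_stable (p := 2) h2S hMS hρ htr hspan hns
    (Z.map (DistribSMul.toAddMonoidHom _ (2 ^ (i + 2) : ℕ))) ?_ ?_ (c := -(q * δ)) ?_
    ⟨x, ⟨hx, hxe, hxδ⟩, rfl⟩)
  · rintro g _ ⟨z, hz, rfl⟩
    exact ⟨g • z, hstab g z hz, (jz_smul_nsmul g (2 ^ (i + 2)) z).symm⟩
  · rintro _ ⟨z, hz, rfl⟩
    refine ⟨?_, hz.2.1.nsmul _⟩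
    show 2 ^ n • 2 ^ (i + 2) • z = 0
    rw [nsmul_comm', hz.1, nsmul_zero]
  · rintro _ ⟨z, hz, rfl⟩
    refine frob_torus_scalar S' hX hdeg hgood hw hσ hmk hδ ?_ (htorus z hz)
    show wJ w (2 ^ (i + 2) • z) = δ • 2 ^ (i + 2) • z
    rw [map_nsmul, hz.2.2, nsmul_zsmul_comm']

/-- The eigenvalues of the specialisations. -/
theorem spec_eigen (S' : Setup π w) (hX : IsModularNodal S' X) (hqM : ¬ q ∣ M) {m : ℕ} (hm : 0 < m)
    {z : JZero (M * q)} {y₁ y₂ : Pic0 k (modularFunctionFieldFullC k M)} (h : Spec X m z y₁ y₂)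
    {ℓ : Nat.Primes} [NeZero (ℓ : ℕ)] (hqℓ : q ≠ ℓ) {a : ℤ}
    (hT : heckeOperatorBar (M * q) ℓ z = a • z) (h0 : ((M * ℓ : ℕ) : k) ≠ 0) :
    heckeC k M ℓ h0 y₁ = a • y₁ ∧ heckeC k M ℓ h0 y₂ = a • y₂ := by
  have hqMℓ : ¬ q ∣ M * ℓ := by
    rw [hq.out.dvd_mul]
    rintro (h | h)
    · exact hqM h
    · exact hqℓ ((Nat.prime_dvd_prime_iff_eq hq.out ℓ.2).mp h)
  have h1 := spec_hecke hq.out hqMℓ h0 S' hX.eq₁ hX.eq₂ h
  have h2 := Spec.zsmul' S'.surj hm h a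
  have h3 : heckeOperatorAlong Qbar (M * q) ℓ (z : Pic0 Qbar (modularFunctionFieldBar (M * q))) =
    a • (z : Pic0 Qbar (modularFunctionFieldBar (M * q))) := hT
  rw [h3] at h1
  exact h1.unique S'.surj h2

end Step

section Main

/-- The geometric input for all nodal models. -/
def GeoInput (M q : ℕ) [NeZero M] [NeZero q] : Prop :=
  ∀ (_ : q.Prime) (_ : ¬ q ∣ M) (A : ValuationSubring Qbar) (_ : A.LiesOverPrime q)
    (k : Type) [Field k] [IsAlgClosed k] [CharP k q] (π : A →+* k)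
    (w : laurentBaseChange Qbar (modularFunctionFieldFull (M * q)) ≃ₐ[Qbar]
      laurentBaseChange Qbar (modularFunctionFieldFull (M * q)))
    [FunctionField Qbar (modularFunctionFieldBar (M * q))]
    [FunctionField Qbar (modularFunctionFieldBar M)]
    [FunctionField k (modularFunctionFieldFullC k M)]
    (S' : Setup π w) [Fact q.Prime]
    (X : NodalDatum Qbar (modularFunctionFieldBar (M * q)) k
      (modularFunctionFieldFullC k M) (modularFunctionFieldFullC k M) A π),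
    IsModularNodal S' X → Geo A X

variable {M q : ℕ} [NeZero M] [NeZero q] {n : ℕ} {S : Finset ℕ} {a : ℕ → ℤ}
  {ρ : Γℚ →* Matrix (Fin 2) (Fin 2) (ZMod (2 ^ n))}

/-- **Mazur's principle modulo `2^n`**, from the geometric input. -/
theorem mazur_step_of_geo (hgeo : GeoInput M q) (hq : q.Prime) (hq2 : q ≠ 2) (hqM : ¬ q ∣ M)
    (h2S : 2 ∈ S) (hMS : ∀ r : ℕ, r.Prime → r ∣ M * q → r ∈ S)
    (hρ : FiniteLevel ρ) (htr : HasTraces S a ρ)
    (hspan : Submodule.span (ZMod (2 ^ n)) (Set.range ρ) = ⊤)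
    {A : ValuationSubring Qbar} (hA : A.LiesOverPrime q)
    (hunr : ∀ τ ∈ A.inertiaSubgroupIn ℚ, ρ τ = 1)
    {σ : Γℚ} (hσ : A.IsFrobeniusAt σ q) (hns : NonScalar (ρ σ))
    {x : JZero (M * q)} (hx : 2 ^ n • x = 0) (hxe : IsEigen (M * q) S a x) {i : ℕ}
    (hi : 2 ^ (i + 3) • x ≠ 0) :
    ∃ y : JZero M, 2 ^ n • y = 0 ∧ IsEigen M S a y ∧ 2 ^ i • y ≠ 0 := by
  have hn : 0 < n := by
    rcases Nat.eq_zero_or_pos n with rfl | h
    · rw [pow_zero, one_nsmul] at hx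
      rw [hx, nsmul_zero] at hi
      exact absurd rfl hi
    · exact h
  have hπ : Function.Surjective (IsLocalRing.residue A) := IsLocalRing.residue_surjective
  have i0 : Fact q.Prime := ⟨hq⟩
  have i1 : CharP (IsLocalRing.ResidueField A) q := Mod.charP_of_liesOverPrime hπ hq hA
  have i2 : IsAlgClosed (IsLocalRing.ResidueField A) := isAlgClosed_of_surjective hπ
  have i3 : ExpChar (IsLocalRing.ResidueField A) q := ExpChar.prime hq
  have hdeg : DegreeInput M (IsLocalRing.ResidueField A) :=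
    degreeInput' (NeZero.ne M) hqM
  have hgood : GoodReduction M (IsLocalRing.ResidueField A) :=
    goodReduction hπ hq (NeZero.ne M) hqM
  have i4 := hdeg.functionField
  have i5 := hdeg.functionField'
  have i6 : FunctionField Qbar (modularFunctionFieldBar (M * q)) := functionField_bar (M * q)
  obtain ⟨w, hw, S'⟩ := exists_setup_bar (M := M) (q := q) hπ hqM
  obtain ⟨X, hX, -⟩ := exists_modular_nodalDatum hA hqM S' hdeg hgood
  obtain ⟨r, hr⟩ := exists_placeRed hdeg hπ hgood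
  have hgeo' : Geo A X := hgeo hq hqM A hA _ _ w S' X hX
  have hmk : ((2 ^ n : ℕ) : IsLocalRing.ResidueField A) ≠ 0 := by
    rw [Nat.cast_pow, Nat.cast_ofNat]
    refine pow_ne_zero n fun h => hq2 ?_
    have h' : ((2 : ℕ) : IsLocalRing.ResidueField A) = 0 := by exact_mod_cast h
    exact (Nat.prime_dvd_prime_iff_eq hq Nat.prime_two).mp
      ((CharP.cast_eq_zero_iff (IsLocalRing.ResidueField A) q 2).mp h')
  -- splitting under `w`
  obtain ⟨δ, hδ, x', hx', hxe', hxδ, hi'⟩ : ∃ δ : ℤ, δ * δ = 1 ∧ ∃ x' : JZero (M * q),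
      2 ^ n • x' = 0 ∧ IsEigen (M * q) S a x' ∧ wJ w x' = δ • x' ∧ 2 ^ (i + 2) • x' ≠ 0 := by
    have hwx : IsEigen (M * q) S a (wJ w x) := by
      intro ℓ hℓ
      haveI : NeZero (ℓ : ℕ) := ⟨ℓ.2.ne_zero⟩
      have hqℓ : ¬ q ∣ (ℓ : ℕ) := fun h => hℓ (by
        rw [← (Nat.prime_dvd_prime_iff_eq hq ℓ.2).mp h]
        exact hMS q hq (dvd_mul_left q M))
      have h1 := wJ_heckeAlong hq hqM S'.al hqℓ x
      have h2 : heckeOperatorAlong Qbar (M * q) ℓ x = a ℓ • x := hxe ℓ hℓ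
      rw [h2, map_zsmul] at h1
      exact h1.symm
    have hwx2 : 2 ^ n • wJ w x = 0 := by rw [← map_nsmul, hx, map_zero]
    by_cases h : 2 ^ (i + 2) • (x + wJ w x) = 0
    · refine ⟨-1, by norm_num, x - wJ w x, ?_, ?_, ?_, fun h' => hi ?_⟩
      · rw [nsmul_sub, hx, hwx2, sub_zero]
      · rw [sub_eq_add_neg]
        exact hxe.add hwx.neg
      · rw [map_sub, wJ_wJ hq S'.al, neg_one_zsmul, neg_sub]
      · have h3 : 2 ^ (i + 2) • (x + wJ w x) + 2 ^ (i + 2) • (x - wJ w x) = 0 := by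
          rw [h, h', add_zero]
        rw [← nsmul_add, add_add_sub_cancel, ← two_nsmul, ← mul_nsmul', ← pow_succ] at h3
        exact h3
    · refine ⟨1, by norm_num, x + wJ w x, ?_, hxe.add hwx, ?_, h⟩
      · rw [nsmul_add, hx, hwx2, add_zero]
      · rw [map_add, wJ_wJ hq S'.al, one_zsmul, add_comm]
  obtain ⟨z, y₁, y₂, hze, hspec, hbig⟩ := exists_big_spec S' hX hdeg hgood hgeo' hw hn h2S hMS
    hq2 hρ htr hspan hunr hσ hns hδ hx' hxe' hxδ hi'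
  -- lifting a class of the special fibre
  have lift : ∀ y : Pic0 (IsLocalRing.ResidueField A)
      (modularFunctionFieldFullC (IsLocalRing.ResidueField A) M), 2 ^ n • y = 0 → 2 ^ i • y ≠ 0 →
      (∀ (ℓ : Nat.Primes) [NeZero (ℓ : ℕ)] (h0 : ((M * ℓ : ℕ) : IsLocalRing.ResidueField A) ≠ 0),
        (ℓ : ℕ) ∉ S → heckeC (IsLocalRing.ResidueField A) M ℓ h0 y = a ℓ • y) →
      ∃ y' : JZero M, 2 ^ n • y' = 0 ∧ IsEigen M S a y' ∧ 2 ^ i • y' ≠ 0 := by
    intro y hy hyi hye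
    obtain ⟨y', h1, h2⟩ := Fermat.Agent.DR.S35.exists_torsion_lift hπ hq hA hdeg hgood hr
      Nat.prime_two hq2.symm n hy
    refine ⟨y', h1, fun ℓ hℓ => ?_, fun h => hyi ?_⟩
    · haveI : NeZero (ℓ : ℕ) := ⟨ℓ.2.ne_zero⟩
      have hqMℓ : ¬ q ∣ M * ℓ := by
        rw [hq.dvd_mul]
        rintro (h | h)
        · exact hqM h
        · apply hℓ
          rw [← (Nat.prime_dvd_prime_iff_eq hq ℓ.2).mp h]
          exact hMS q hq (dvd_mul_left q M)
      have h0 := natCast_ne_zero_of_not_dvd (IsLocalRing.ResidueField A) q (M * ℓ) hqMℓ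
      refine eigen_lift hdeg hπ hgood hr hmk h0 h1 ?_
      rw [h2]
      exact hye ℓ h0 hℓ
    · rw [← h2, ← map_nsmul, h, map_zero]
  have heig : ∀ (ℓ : Nat.Primes) [NeZero (ℓ : ℕ)]
      (h0 : ((M * ℓ : ℕ) : IsLocalRing.ResidueField A) ≠ 0), (ℓ : ℕ) ∉ S →
      heckeC (IsLocalRing.ResidueField A) M ℓ h0 y₁ = a ℓ • y₁ ∧
        heckeC (IsLocalRing.ResidueField A) M ℓ h0 y₂ = a ℓ • y₂ := by
    intro ℓ _ h0 hℓ
    refine spec_eigen S' hX hqM (pow_pos two_pos n) hspec ?_ (hze ℓ hℓ) h0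
    rintro rfl
    exact hℓ (hMS _ hq (dvd_mul_left _ M))
  obtain ⟨-, t1, t2⟩ := hspec.torsion
  rcases hbig with h | h
  · exact lift y₁ t1 h fun ℓ _ h0 hℓ => (heig ℓ h0 hℓ).1
  · exact lift y₂ t2 h fun ℓ _ h0 hℓ => (heig ℓ h0 hℓ).2

end Main

end Fermat.Agent.P2.Mazur2k
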