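import Fermat.Agent.P2.Six.Main
import Fermat.Agent.DR.Mod.SpecGeo

/-!
# Block 6 of route P2
-/

set_option autoImplicit false

namespace Fermat.Agent.P2

/-- **Output of Block 6.** -/
theorem block6Out : Block6Out :=
  Mazur2k.block6Out_of (fun M q _ _ => DR.Mod.geoInput M q) Six.block6cOut

end Fermat.Agent.P2
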