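import Fermat.Agent.P2.Defs
import Fermat.Agent.P2.Mazur2k.Step
import Fermat.Agent.Lib.Cyclotomic

/-!
# P2, block 6D: removing all the auxiliary primes

* `repMod D n`: the `2`-adic representation `D.ρ` modulo `2^n`, with its properties;
* `mazur_iterate`: from level `∏ S · ∏ Q` to level `∏ S`;
* `eltAt_of_hasElt`.
-/

set_option autoImplicit false
set_option linter.unusedSectionVars false

noncomputable section

open ModularCurve

namespace Fermat.Agent.P2.Mazur2k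

open Sel

local notation "Qbar" => AlgebraicClosure ℚ
local notation "Γℚ" => (AlgebraicClosure ℚ ≃ₐ[ℚ] AlgebraicClosure ℚ)

section Rep

variable {S : Finset ℕ} {a : ℕ → ℤ} (D : GalData S a) (n : ℕ)

/-- `D.ρ` modulo `2^n`. -/
def repMod : Γℚ →* Matrix (Fin 2) (Fin 2) (ZMod (2 ^ n)) :=
  (Units.coeHom _).comp ((Matrix.GeneralLinearGroup.map (PadicInt.toZModPow n)).comp D.ρ)

theorem repMod_apply (g : Γℚ) (i j : Fin 2) : repMod D n g i j =
    PadicInt.toZModPow n ((D.ρ g : Matrix (Fin 2) (Fin 2) ℤ_[2]) i j) := rfl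

theorem repMod_eq_map (g : Γℚ) : repMod D n g =
    (PadicInt.toZModPow n).mapMatrix (D.ρ g : Matrix (Fin 2) (Fin 2) ℤ_[2]) := rfl

theorem toZModPow_eq_zero_of_dvd {x : ℤ_[2]} (h : (2 : ℤ_[2]) ^ n ∣ x) :
    PadicInt.toZModPow n x = 0 := by
  have : x ∈ RingHom.ker (PadicInt.toZModPow (p := 2) n) := by
    rw [PadicInt.ker_toZModPow]
    exact Ideal.mem_span_singleton.mpr h
  exact this

theorem two_dvd_iff (x : ℤ_[2]) : (2 : ℤ_[2]) ∣ x ↔ PadicInt.toZMod x = 0 := by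
  have h1 : x ∈ RingHom.ker (PadicInt.toZMod (p := 2)) ↔ (2 : ℤ_[2]) ∣ x := by
    rw [PadicInt.ker_toZMod, PadicInt.maximalIdeal_eq_span_p, Ideal.mem_span_singleton]
    norm_num
  rw [← h1, RingHom.mem_ker]

theorem isUnit_toZModPow {x : ℤ_[2]} (h : ¬ (2 : ℤ_[2]) ∣ x) :
    IsUnit (PadicInt.toZModPow n x) := by
  apply IsUnit.map
  by_contra hx
  have h1 : x ∈ IsLocalRing.maximalIdeal ℤ_[2] := hx
  rw [PadicInt.maximalIdeal_eq_span_p, Ideal.mem_span_singleton] at h1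
  exact h (by exact_mod_cast h1)

theorem castHom_toZModPow (hn : 0 < n) (x : ℤ_[2]) :
    ZMod.castHom (dvd_pow_self 2 hn.ne') (ZMod 2) (PadicInt.toZModPow n x) =
      PadicInt.toZMod x := by
  obtain ⟨y, hy⟩ := Ideal.mem_span_singleton.mp (PadicInt.appr_spec n x)
  have hx : x = (x.appr n : ℤ_[2]) + (2 : ℤ_[2]) ^ n * y := by
    have : ((2 : ℕ) : ℤ_[2]) = 2 := by norm_num
    rw [this] at hy
    linear_combination hy
  have h1 : PadicInt.toZModPow n x = (x.appr n : ZMod (2 ^ n)) := by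
    conv_lhs => rw [hx]
    rw [map_add, map_natCast, toZModPow_eq_zero_of_dvd n (dvd_mul_right _ _), add_zero]
  have h2 : PadicInt.toZMod x = (x.appr n : ZMod 2) := by
    conv_lhs => rw [hx]
    rw [map_add, map_natCast, (two_dvd_iff _).mp ((dvd_pow_self 2 hn.ne').mul_right y), add_zero]
  rw [h1, h2, map_natCast]

theorem finiteLevel_repMod : FiniteLevel (repMod D n) := by
  obtain ⟨L, hL, h⟩ := D.cont n
  refine ⟨L, hL, fun σ hσ => ?_⟩
  ext i j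
  have h1 := toZModPow_eq_zero_of_dvd n (h σ hσ i j)
  rw [Matrix.sub_apply, map_sub, sub_eq_zero] at h1
  rw [repMod_apply, h1, Matrix.one_apply, Matrix.one_apply]
  split_ifs <;> simp

theorem hasTraces_repMod (h2 : 2 ∈ S) {S' : Finset ℕ} (hS : S ⊆ S') :
    HasTraces S' a (repMod D n) := by
  intro ℓ hℓ hℓS B hB σ hσ
  have hℓS' : ℓ ∉ S := fun h => hℓS (hS h)
  constructor
  · have h1 := D.trace_frob ℓ hℓ hℓS' B hB σ hσ
    rw [Matrix.trace_fin_two] at h1 ⊢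
    rw [repMod_apply, repMod_apply, ← map_add, h1, map_intCast]
  · have h2' : ℓ ≠ 2 := fun h => hℓS' (h ▸ h2)
    have h1 := D.cyc n σ ℓ (fun μ hμ => by
      haveI : NeZero (2 ^ n) := ⟨pow_ne_zero _ two_ne_zero⟩
      have hln : ¬ ℓ ∣ 2 ^ n := fun h => h2' ((Nat.prime_dvd_prime_iff_eq hℓ Nat.prime_two).mp
        (hℓ.dvd_of_dvd_pow h))
      rw [Cyclotomic.cyc_spec (2 ^ n) σ hμ, Cyclotomic.cyc_frobenius (n := 2 ^ n) hℓ hln B hB hσ]
      exact Cyclotomic.pow_val_natCast (2 ^ n) hμ ℓ)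
    have h3 := toZModPow_eq_zero_of_dvd n h1
    rw [map_sub, sub_eq_zero, map_natCast] at h3
    rw [repMod_eq_map, ← RingHom.map_det]
    exact h3

theorem repMod_inertia {q : ℕ} (hq : q.Prime) (hqS : q ∉ S) {A : ValuationSubring Qbar}
    (hA : A.LiesOverPrime q) : ∀ τ ∈ A.inertiaSubgroupIn ℚ, repMod D n τ = 1 := by
  intro τ hτ
  have := D.unram q hq hqS A hA τ hτ
  rw [repMod, MonoidHom.comp_apply, MonoidHom.comp_apply, this, map_one, map_one]

/-- Approximation by the span of the image, modulo `2`. -/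
theorem exists_span_mod_two (hn : 0 < n) (M : Matrix (Fin 2) (Fin 2) (ZMod (2 ^ n))) :
    ∃ N ∈ Submodule.span (ZMod (2 ^ n)) (Set.range (repMod D n)),
      ∃ M' : Matrix (Fin 2) (Fin 2) (ZMod (2 ^ n)), M = N + (2 : ZMod (2 ^ n)) • M' := by
  let P : Submodule (ZMod (2 ^ n)) (Matrix (Fin 2) (Fin 2) (ZMod (2 ^ n))) :=
    Submodule.span (ZMod (2 ^ n)) (Set.range (repMod D n)) ⊔
      (LinearMap.range (LinearMap.lsmul (ZMod (2 ^ n)) (Matrix (Fin 2) (Fin 2) (ZMod (2 ^ n)))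
        (2 : ZMod (2 ^ n))))
  suffices h : M ∈ P by
    obtain ⟨N, hN, _, ⟨M', rfl⟩, h⟩ := Submodule.mem_sup.mp h
    exact ⟨N, hN, M', h.symm⟩
  -- every matrix congruent modulo `2` to an invertible matrix is in `P`
  have key : ∀ (B : GL (Fin 2) (ZMod 2)) (M : Matrix (Fin 2) (Fin 2) (ZMod (2 ^ n))),
      (∀ i j, ZMod.castHom (dvd_pow_self 2 hn.ne') (ZMod 2) (M i j) = (B : Matrix _ _ _) i j) →
      M ∈ P := by
    intro B M hM
    obtain ⟨g, hg⟩ := D.surj B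
    have h1 : ∀ i j, ∃ c : ZMod (2 ^ n), M i j - repMod D n g i j = 2 * c := by
      intro i j
      have h2 : ZMod.castHom (dvd_pow_self 2 hn.ne') (ZMod 2) (M i j - repMod D n g i j) = 0 := by
        rw [map_sub, hM, sub_eq_zero, repMod_apply, castHom_toZModPow n hn, hg i j]
      obtain ⟨b, hb⟩ : ∃ b : ℕ, (b : ZMod (2 ^ n)) = M i j - repMod D n g i j :=
        ⟨(M i j - repMod D n g i j).val, by
          haveI : NeZero (2 ^ n) := ⟨pow_ne_zero _ two_ne_zero⟩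
          exact ZMod.natCast_zmod_val _⟩
      rw [← hb, map_natCast, ZMod.natCast_eq_zero_iff] at h2
      obtain ⟨c, rfl⟩ := h2
      exact ⟨c, by rw [← hb]; push_cast; ring⟩
    choose c hc using h1
    refine Submodule.mem_sup.mpr ⟨repMod D n g, Submodule.subset_span ⟨g, rfl⟩,
      (2 : ZMod (2 ^ n)) • Matrix.of c, ⟨Matrix.of c, rfl⟩, ?_⟩
    ext i j
    rw [Matrix.add_apply, Matrix.smul_apply, Matrix.of_apply, smul_eq_mul, ← hc i j]
    ring
  -- every matrix is a sum of two such matrices, up to `2 M₂`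
  let lift : ZMod 2 → ZMod (2 ^ n) := fun c => (c.val : ZMod (2 ^ n))
  have hlift : ∀ c : ZMod 2, ZMod.castHom (dvd_pow_self 2 hn.ne') (ZMod 2) (lift c) = c := by
    intro c
    simp only [lift, map_natCast]
    exact ZMod.natCast_zmod_val c
  have hB : ∀ B : GL (Fin 2) (ZMod 2), (Matrix.of fun i j => lift ((B : Matrix _ _ _) i j)) ∈ P :=
    fun B => key B _ fun i j => by rw [Matrix.of_apply, hlift]
  have hsum : ∀ (M : Matrix (Fin 2) (Fin 2) (ZMod (2 ^ n))) (B₁ B₂ : GL (Fin 2) (ZMod 2)),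
      (∀ i j, ZMod.castHom (dvd_pow_self 2 hn.ne') (ZMod 2) (M i j) =
        (B₁ : Matrix _ _ _) i j + (B₂ : Matrix _ _ _) i j) → M ∈ P := by
    intro M B₁ B₂ h
    have h1 : M - (Matrix.of fun i j => lift ((B₂ : Matrix _ _ _) i j)) ∈ P := by
      refine key B₁ _ fun i j => ?_
      rw [Matrix.sub_apply, map_sub, h, Matrix.of_apply, hlift, add_sub_cancel_right]
    have h2 := P.add_mem h1 (hB B₂)
    rwa [sub_add_cancel] at h2
  have hgl : ∀ B : Matrix (Fin 2) (Fin 2) (ZMod 2), B.det = 1 →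
      ∃ B' : GL (Fin 2) (ZMod 2), (B' : Matrix _ _ _) = B := by
    intro B hB
    have : IsUnit B := (Matrix.isUnit_iff_isUnit_det B).mpr (by rw [hB]; exact isUnit_one)
    exact ⟨this.unit, this.unit_spec⟩
  have hc1 : (ZMod.cast (1 : ZMod (2 ^ n)) : ZMod 2) = 1 :=
    map_one (ZMod.castHom (dvd_pow_self 2 hn.ne') (ZMod 2))
  have h2z : (1 : ZMod 2) + 1 = 0 := by decide
  obtain ⟨I, hI⟩ := hgl 1 (by simp)
  obtain ⟨W, hW⟩ := hgl !![0, 1; 1, 0] (by decide)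
  obtain ⟨E₁, hE₁⟩ := hgl !![1, 1; 1, 0] (by decide)
  obtain ⟨E₂, hE₂⟩ := hgl !![0, 1; 1, 1] (by decide)
  obtain ⟨U, hU⟩ := hgl !![1, 1; 0, 1] (by decide)
  obtain ⟨V, hV⟩ := hgl !![1, 0; 1, 1] (by decide)
  have h00 : Matrix.single 0 0 (1 : ZMod (2 ^ n)) ∈ P := by
    refine hsum _ E₁ W fun i j => ?_
    rw [hE₁, hW]
    fin_cases i <;> fin_cases j <;> simp [hc1, h2z]
  have h11 : Matrix.single 1 1 (1 : ZMod (2 ^ n)) ∈ P := by
    refine hsum _ E₂ W fun i j => ?_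
    rw [hE₂, hW]
    fin_cases i <;> fin_cases j <;> simp [hc1, h2z]
  have h01 : Matrix.single 0 1 (1 : ZMod (2 ^ n)) ∈ P := by
    refine hsum _ U I fun i j => ?_
    rw [hU, hI]
    fin_cases i <;> fin_cases j <;> simp [hc1, h2z]
  have h10 : Matrix.single 1 0 (1 : ZMod (2 ^ n)) ∈ P := by
    refine hsum _ V I fun i j => ?_
    rw [hV, hI]
    fin_cases i <;> fin_cases j <;> simp [hc1, h2z]
  have hM : M = M 0 0 • Matrix.single 0 0 (1 : ZMod (2 ^ n)) +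
      M 0 1 • Matrix.single 0 1 (1 : ZMod (2 ^ n)) + M 1 0 • Matrix.single 1 0 (1 : ZMod (2 ^ n)) +
      M 1 1 • Matrix.single 1 1 (1 : ZMod (2 ^ n)) := by
    ext i j
    fin_cases i <;> fin_cases j <;> simp
  rw [hM]
  exact P.add_mem (P.add_mem (P.add_mem (P.smul_mem _ h00) (P.smul_mem _ h01))
    (P.smul_mem _ h10)) (P.smul_mem _ h11)

/-- The image of `ρ` modulo `2^n` spans the matrix algebra. -/
theorem span_repMod (hn : 0 < n) :
    Submodule.span (ZMod (2 ^ n)) (Set.range (repMod D n)) = ⊤ := by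
  rw [eq_top_iff]
  intro M _
  have h : ∀ k : ℕ, ∃ N ∈ Submodule.span (ZMod (2 ^ n)) (Set.range (repMod D n)),
      ∃ M' : Matrix (Fin 2) (Fin 2) (ZMod (2 ^ n)), M = N + ((2 : ZMod (2 ^ n)) ^ k) • M' := by
    intro k
    induction k with
    | zero => exact ⟨0, zero_mem _, M, by rw [pow_zero, one_smul, zero_add]⟩
    | succ k ih =>
      obtain ⟨N, hN, M', hM'⟩ := ih
      obtain ⟨N', hN', M'', hM''⟩ := exists_span_mod_two D n hn M'
      refine ⟨N + (2 : ZMod (2 ^ n)) ^ k • N', add_mem hN (Submodule.smul_mem _ _ hN'), M'', ?_⟩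
      rw [hM', hM'', smul_add, smul_smul, pow_succ, add_assoc]
  obtain ⟨N, hN, M', hM'⟩ := h n
  have h0 : (2 : ZMod (2 ^ n)) ^ n = 0 := by
    have := ZMod.natCast_self (2 ^ n)
    push_cast at this
    exact this
  rw [hM', h0, zero_smul, add_zero]
  exact hN

/-- Frobenius at an auxiliary prime is not scalar modulo `2`. -/
theorem nonScalar_repMod (hn : 0 < n) {q : ℕ} (hq : AuxPrime D.ρ S n q)
    {A : ValuationSubring Qbar} (hA : A.LiesOverPrime q) {φ : Γℚ} (hφ : A.IsFrobeniusAt φ q) :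
    NonScalar (repMod D n φ) := by
  obtain ⟨g, hg⟩ := hq.2.2 A hA φ hφ
  let r : GL (Fin 2) ℤ_[2] →* GL (Fin 2) (ZMod 2) :=
    Matrix.GeneralLinearGroup.map PadicInt.toZMod
  have hr : ∀ (B : GL (Fin 2) ℤ_[2]) i j, (r B : Matrix (Fin 2) (Fin 2) (ZMod 2)) i j =
    PadicInt.toZMod ((B : Matrix (Fin 2) (Fin 2) ℤ_[2]) i j) := fun B i j => rfl
  by_contra hcon
  simp only [NonScalar, not_or, repMod_apply, ← map_sub] at hcon
  have d01 : (2 : ℤ_[2]) ∣ (D.ρ φ : Matrix (Fin 2) (Fin 2) ℤ_[2]) 0 1 := by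
    by_contra h
    exact hcon.1 (isUnit_toZModPow n h)
  have d10 : (2 : ℤ_[2]) ∣ (D.ρ φ : Matrix (Fin 2) (Fin 2) ℤ_[2]) 1 0 := by
    by_contra h
    exact hcon.2.1 (isUnit_toZModPow n h)
  have d00 : (2 : ℤ_[2]) ∣ (D.ρ φ : Matrix (Fin 2) (Fin 2) ℤ_[2]) 0 0 -
      (D.ρ φ : Matrix (Fin 2) (Fin 2) ℤ_[2]) 1 1 := by
    by_contra h
    exact hcon.2.2 (isUnit_toZModPow n h)
  rw [two_dvd_iff] at d01 d10 d00
  rw [← hr] at d01 d10
  rw [map_sub, ← hr, ← hr, sub_eq_zero] at d00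
  -- `r (ρ φ) = 1`
  have hdet : (r (D.ρ φ) : Matrix (Fin 2) (Fin 2) (ZMod 2)).det ≠ 0 :=
    ((Matrix.isUnit_iff_isUnit_det _).mp (r (D.ρ φ)).isUnit).ne_zero
  rw [Matrix.det_fin_two, d01, d10, zero_mul, sub_zero, ← d00] at hdet
  have h00 : (r (D.ρ φ) : Matrix (Fin 2) (Fin 2) (ZMod 2)) 0 0 = 1 := by
    have key : ∀ c : ZMod 2, c * c ≠ 0 → c = 1 := by decide
    exact key _ hdet
  have h1 : r (D.ρ φ) = 1 := by
    apply Units.ext
    ext i j
    fin_cases i <;> fin_cases j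
    · simpa using h00
    · simpa using d01
    · simpa using d10
    · simpa [← d00] using h00
  have h2 : r (D.ρ φ) = r (D.ρ (g * complexConjugation * g⁻¹)) := by
    apply Units.ext
    ext i j
    rw [hr, hr, ← sub_eq_zero, ← map_sub, ← two_dvd_iff]
    exact (dvd_pow_self 2 hn.ne').trans (hg i j)
  rw [h1, map_mul, map_mul, map_inv, map_mul, map_mul, map_inv, eq_comm, mul_inv_eq_one,
    mul_eq_left] at h2
  obtain ⟨i, j, hij⟩ := D.conj
  apply hij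
  rw [two_dvd_iff, Matrix.sub_apply, map_sub, ← hr, h2]
  simp only [Units.val_one, Matrix.one_apply]
  split_ifs <;> simp

end Rep

section Iterate

/-- There is a class in `J₀(N)[2^n]` of order `> 2^i`, eigen for the `T_ℓ`, `ℓ ∉ S'`, with
eigenvalues `a ℓ`. -/
def HasElt (N : ℕ) (S' : Finset ℕ) (a : ℕ → ℤ) (n i : ℕ) : Prop :=
  ∃ (_ : NeZero N) (x : JZero N), 2 ^ n • x = 0 ∧
    (∀ ℓ : Nat.Primes, (ℓ : ℕ) ∉ S' → heckeOperatorBar N ℓ x = a ℓ • x) ∧ 2 ^ i • x ≠ 0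

/-- Output of block 6C. -/
def Block6cOut : Prop :=
  ∀ (S : Finset ℕ) (a : ℕ → ℤ) (D : GalData S a), (∀ q ∈ S, q.Prime) → 2 ∈ S →
    ∀ h i : ℕ, ∃ n₀ : ℕ, ∀ n : ℕ, n₀ ≤ n → ∀ (Q : Finset ℕ) [NeZero (lev S Q)],
      (∀ q ∈ Q, AuxPrime D.ρ S n q) → ∀ ε : ℕ → ℤ, (∀ q, ε q = 1 ∨ ε q = -1) →
        (∀ x ∈ anem (lev S Q), Kills (lev S Q) Q ε x → (2 : ℤ) ^ n ∣ lam a x) →
        Finite (Systems (lev S Q) Q ε a) → Nat.card (Systems (lev S Q) Q ε a) ≤ h →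
        HasElt (lev S Q) (S ∪ Q) a n i

variable {S : Finset ℕ} {a : ℕ → ℤ} (D : GalData S a) {n : ℕ}

theorem prime_dvd_prod {T : Finset ℕ} (hT : ∀ q ∈ T, q.Prime) {ℓ : ℕ} (hℓ : ℓ.Prime)
    (h : ℓ ∣ ∏ q ∈ T, q) : ℓ ∈ T := by
  obtain ⟨q, hq, hd⟩ := (Nat.Prime.prime hℓ).exists_mem_finset_dvd h
  rwa [(Nat.prime_dvd_prime_iff_eq hℓ (hT q hq)).mp hd]

/-- One step. -/
theorem HasElt.step (hgeo : ∀ (M q : ℕ) [NeZero M] [NeZero q], GeoInput M q)
    (hS : ∀ q ∈ S, q.Prime) (h2 : 2 ∈ S) {Q Q₀ : Finset ℕ} {q : ℕ}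
    (hQ₀ : ∀ r ∈ Q₀, AuxPrime D.ρ S n r) (hQ : insert q Q ⊆ Q₀) (hqQ : q ∉ Q) {i : ℕ}
    (h : HasElt (lev S (insert q Q)) (S ∪ Q₀) a n (i + 3)) :
    HasElt (lev S Q) (S ∪ Q₀) a n i := by
  have hlev : lev S (insert q Q) = lev S Q * q := by
    rw [lev, lev, Finset.prod_insert hqQ]
    ring
  rw [hlev] at h
  obtain ⟨hN, x, hx, hxe, hi⟩ := h
  have hqA := hQ₀ q (hQ (Finset.mem_insert_self q Q))
  have hq : q.Prime := hqA.1
  have hq2 : q ≠ 2 := fun h => hqA.2.1 (h ▸ h2)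
  have hn : 0 < n := by
    rcases Nat.eq_zero_or_pos n with rfl | h
    · rw [pow_zero, one_nsmul] at hx
      rw [hx, nsmul_zero] at hi
      exact absurd rfl hi
    · exact h
  have hM0 : lev S Q ≠ 0 := left_ne_zero_of_mul (NeZero.ne (lev S Q * q))
  haveI : NeZero (lev S Q) := ⟨hM0⟩
  haveI : NeZero q := ⟨hq.ne_zero⟩
  have hQp : ∀ r ∈ Q, r.Prime := fun r hr => (hQ₀ r (hQ (Finset.mem_insert_of_mem hr))).1
  have hqM : ¬ q ∣ lev S Q := by
    intro h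
    rcases (Nat.Prime.dvd_mul hq).mp h with h | h
    · exact hqA.2.1 (prime_dvd_prod hS hq h)
    · exact hqQ (prime_dvd_prod hQp hq h)
  have hMS : ∀ r : ℕ, r.Prime → r ∣ lev S Q * q → r ∈ S ∪ Q₀ := by
    intro r hr h
    rcases (Nat.Prime.dvd_mul hr).mp h with h | h
    · rcases (Nat.Prime.dvd_mul hr).mp h with h | h
      · exact Finset.mem_union_left _ (prime_dvd_prod hS hr h)
      · exact Finset.mem_union_right _ (hQ (Finset.mem_insert_of_mem (prime_dvd_prod hQp hr h)))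
    · rw [(Nat.prime_dvd_prime_iff_eq hr hq).mp h]
      exact Finset.mem_union_right _ (hQ (Finset.mem_insert_self q Q))
  -- a place over `q` and a Frobenius element
  obtain ⟨A, hA, σ, hσ⟩ : ∃ A : ValuationSubring Qbar, A.LiesOverPrime q ∧
      ∃ σ : Γℚ, A.IsFrobeniusAt σ q := by
    obtain ⟨A, hA⟩ := FrobExists.exists_liesOverPrime Qbar hq
    obtain ⟨σ, hσ⟩ := FrobExists.exists_isFrobeniusAt A hq hA
    exact ⟨A, hA, σ, hσ⟩
  obtain ⟨y, h1, h2', h3⟩ := mazur_step_of_geo (hgeo (lev S Q) q) hq hq2 hqM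
    (Finset.mem_union_left _ h2) hMS (finiteLevel_repMod D n)
    (hasTraces_repMod D n h2 Finset.subset_union_left) (span_repMod D n hn) hA
    (repMod_inertia D n hq hqA.2.1 hA) hσ (nonScalar_repMod D n hn hqA hA hσ) hx hxe hi
  exact ⟨inferInstance, y, h1, h2', h3⟩

/-- Removing all the primes of `Q`. -/
theorem HasElt.iterate (hgeo : ∀ (M q : ℕ) [NeZero M] [NeZero q], GeoInput M q)
    (hS : ∀ q ∈ S, q.Prime) (h2 : 2 ∈ S) {Q₀ : Finset ℕ}
    (hQ₀ : ∀ r ∈ Q₀, AuxPrime D.ρ S n r) (Q : Finset ℕ) (hQ : Q ⊆ Q₀) {i : ℕ}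
    (h : HasElt (lev S Q) (S ∪ Q₀) a n (i + 3 * Q.card)) :
    HasElt (∏ q ∈ S, q) (S ∪ Q₀) a n i := by
  induction Q using Finset.induction_on generalizing i with
  | empty => simpa [lev] using h
  | insert q Q hqQ ih =>
    refine ih (fun r hr => hQ (Finset.mem_insert_of_mem hr)) ?_
    refine HasElt.step D hgeo hS h2 hQ₀ hQ hqQ ?_
    rw [Finset.card_insert_of_notMem hqQ] at h
    have e : i + 3 * (Q.card + 1) = i + 3 * Q.card + 3 := by ring
    rwa [e] at h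

/-- From `HasElt` to `EltAt`. -/
theorem HasElt.eltAt {N : ℕ} [NeZero N] {S' : Finset ℕ} {n k B : ℕ} (h : HasElt N S' a n k)
    (hS' : ∀ ℓ : ℕ, ℓ.Prime → ¬ ℓ ∣ N → ℓ ≤ B → ℓ ∉ S') : EltAt N a B k := by
  classical
  obtain ⟨_, x, hx, hxe, hk⟩ := h
  have hex : ∃ t, 2 ^ t • x = 0 := ⟨n, hx⟩
  set t := Nat.find hex with ht
  have ht0 : 2 ^ t • x = 0 := Nat.find_spec hex
  have htk : k < t := by
    by_contra hle
    push Not at hle
    apply hk
    obtain ⟨d, rfl⟩ := Nat.exists_eq_add_of_le hle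
    rw [pow_add, mul_comm, mul_nsmul', ht0, nsmul_zero]
  refine ⟨2 ^ (t - k) • x, ?_, fun hk0 h0 => ?_, fun ℓ hℓN hℓB => ?_⟩
  · rw [← mul_nsmul', ← pow_add, Nat.add_sub_cancel' htk.le, ht0]
  · rw [← mul_nsmul', ← pow_add] at h0
    exact Nat.find_min hex (m := k - 1 + (t - k)) (by omega) h0
  · exact (IsEigen.nsmul (S := S') (a := a) (fun ℓ hℓ => hxe ℓ hℓ) (2 ^ (t - k))) ℓ
      (hS' ℓ ℓ.2 hℓN hℓB)

/-- **Block 6** from block 6C and the geometric input. -/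
theorem block6Out_of (hgeo : ∀ (M q : ℕ) [NeZero M] [NeZero q], GeoInput M q)
    (h6c : Block6cOut) : Block6Out := by
  intro S a D _ hS h2 ⟨r, h, H⟩ k B
  obtain ⟨n₀, hn₀⟩ := h6c S a D hS h2 h (k + 3 * r)
  obtain ⟨Q, hNZ, hQr, hQ, hB, ε, hε, hkill, hfin, hcard⟩ := H n₀ B
  have h1 := hn₀ n₀ le_rfl Q hQ ε hε hkill hfin hcard
  rw [← hQr] at h1
  have h3 := HasElt.iterate D hgeo hS h2 hQ Q (Finset.Subset.refl Q) h1
  refine h3.eltAt fun ℓ hℓ hℓN hℓB hmem => ?_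
  rcases Finset.mem_union.mp hmem with h | h
  · exact hℓN (Finset.dvd_prod_of_mem _ h)
  · exact absurd (hB ℓ h) (by omega)

end Iterate

end Fermat.Agent.P2.Mazur2k
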