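import Fermat.Agent.DR.S35.TorsionLift

/-!
# P2, block 6B: eigenclasses in the torsion of `J₀(M)` and of its good reduction at `q`
-/

set_option autoImplicit false
set_option linter.unusedSectionVars false

noncomputable section

open AlgebraicCurve ModularCurve IntermediateField
open Fermat.Agent.RR Fermat.Agent.JRED Fermat.Agent.DR.Mod

namespace Fermat.Agent.P2.Mazur2k

section Lift

variable {A : ValuationSubring (AlgebraicClosure ℚ)} {k : Type} [Field k] {π : A →+* k}
  {M : ℕ} [NeZero M]
  [FunctionField (AlgebraicClosure ℚ) (modularFunctionFieldBar M)]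
  [FunctionField k (modularFunctionFieldFullC k M)] [IsAlgClosed k]
  {r : Place (AlgebraicClosure ℚ) (modularFunctionFieldBar M) →
      Place k (modularFunctionFieldFullC k M)}

/-- Eigenclasses lift to eigenclasses. -/
theorem eigen_lift (hD : DegreeInput M k)
    (hπ : Function.Surjective π) (hgood : GoodReduction M k)
    (hr : PlaceRed (hD.redDatum hπ) r) {m : ℕ} (hmk : (m : k) ≠ 0) {ℓ : Nat.Primes}
    [NeZero (ℓ : ℕ)] (h : ((M * ℓ : ℕ) : k) ≠ 0) {x : JZero M} (hx : m • x = 0) {a : ℤ}
    (hy : heckeC k M ℓ h (redPic hr (deg_place_eq r) x) = a • redPic hr (deg_place_eq r) x) :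
    heckeOperatorBar M ℓ x = a • x := by
  have h1 := redPic_hecke hπ h hD hr (deg_place_eq r) x
  rw [hy, ← map_zsmul, ← sub_eq_zero, ← map_sub] at h1
  have h2 : m • (heckeOperatorAlong (AlgebraicClosure ℚ) M ℓ x - a • x) = 0 := by
    have h3 : m • (a • x) = 0 := by
      rw [← natCast_zsmul, ← mul_zsmul, mul_comm, mul_zsmul, natCast_zsmul, hx, zsmul_zero]
    rw [nsmul_sub, h3, sub_zero, ← map_nsmul, hx, map_zero]
  exact sub_eq_zero.mp (redPic_torsion hD hπ hgood hr hmk h2 h1)

end Lift

end Fermat.Agent.P2.Mazur2k
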